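/-
GATE-F (S44) / GF-ASFORM step (a) (helper48, second seat under helper40; board 6222 §2 (a), 6281 §3),
ABSTRACT half, in the vocabulary of the two-component disc frame (`GS/Frame/Vocab`, `GS/Loc2/KerStar`,
`GS/Gal/FixChart`) and of the generic Kummer descent (`GF/KumDesc/Generic`).

**The chart representative of an invariant admissible class is a rational function.**

`Φ` a disc frame over the two reduction data `R1 R2`, `𝔠` a chart FIXED (centres and parameters) by a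
set `S` of disc-preserving semilinear automorphisms (`S = I' ⊆ I_A`), `ξ ∈ admClasses (Adm2 R1 R2) p`
(`= M⁰_p` in the modular instance) with `σ • ξ = ξ` for `σ ∈ S`, `τ` its coordinates in `𝔠`. Then

* `coord_fixed`    : the coordinates are `S`-fixed (`CoordUnique` + `isCoord_smul_of_fixed`);
* `point_fixed`    : the points `X i` of the coordinate divisor are `S`-fixed (`disc_inj`);
* `exists_fixed_adm_rep` : there is ONE function `g ≠ 0` with
  - `div g = p • (Σ X i − D0)`, `[Σ X i − D0] = ξ`, `X i` in the residue disc of `𝔠.Q i` and `S`-fixed;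
  - `σ • g = g` for `σ ∈ S`, `ν.lc g = 1` (`ν` a normaliser for `S`);
  - `g ∈ L(p • D0)` (so its divisor lives in the smooth chart discs: it misses every node);
  - `a • g` is ADMISSIBLE for both valuations for some constant `a ≠ 0` (`(★)` of `GS/Loc2/KerStar`):
    a unit of `Rw₁ ∩ Rw₂` with CONSTANT reductions.
* `exists_fixed_const_approx` : if moreover the `S`-fixed functions have `S`-fixed Gauss norms
  (`hval`: the `q`-expansion principle) and every unit constant is congruent to an `S`-fixed one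
  (`hteich`: Teichmüller, `S ⊆` inertia), then `g ≡ a₁ mod 𝔪_{w₁}`, `g ≡ a₂ mod 𝔪_{w₂}` with
  `S`-fixed constants `a₁ a₂` — the START of the `K'`-rational `U`-iteration
  (`GF/NormDepth/Inst/RatModular.exists_rat_deep_{one,two}_of_const`) and the constants `κ₁ κ₂` of
  `GF/KCover/ASForm.exists_asForm`.
-/
import Mathlib
import Fermat.Agent.GS.Loc2.KerStar
import Fermat.Agent.GS.Gal.FixChart
import Fermat.Agent.GF.KumDesc.Generic

set_option autoImplicit false
set_option linter.unusedSectionVars false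
set_option linter.unusedVariables false

noncomputable section

open AlgebraicCurve Module

namespace Fermat.Agent.GF.KCover.ASRep

open Fermat.Agent.RRh45 Fermat.Agent.GJ.J1 Fermat.Agent.GK.MultiVal Fermat.Agent.GS.Nodal.LSR2
open Fermat.Agent.GS.Frame Fermat.Agent.GS.Loc2.Ker Fermat.Agent.GS.Gal.FixChart
open Fermat.Agent.GF.KumDesc.Generic
open Fermat.Agent.GH (ValueAt)

open scoped Classical

section Fixed

variable {K F k Sp 𝒬 : Type*} [Field K] [Field F] [Algebra K F] [Field k]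
  [CommRing Sp] [Algebra k Sp]
variable {Φ : DiscData K F k Sp 𝒬}

/-- **the coordinates of a fixed class in a fixed chart are fixed**. -/
theorem coord_fixed {n : ℕ} (hu : CoordUnique Φ n) {σ : SemilinearAut K F}
    (hσ : PreservesDiscs Φ σ) {𝔠 : Chart Φ n} (hfix : FixesChart σ 𝔠) {ξ : Pic0 K F}
    (hξ : σ • ξ = ξ) {τ : Fin n → K} (h : IsCoord 𝔠 ξ τ) (i : Fin n) :
    SemilinearAut.baseAut σ (τ i) = τ i := by
  have h' : IsCoord 𝔠 (σ • ξ) τ := by rw [hξ]; exact h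
  have := coord_smul_eq hu hσ hfix h h'
  exact (congrFun this i).symm

/-- **the points of the coordinate divisor of a fixed class are fixed**. -/
theorem point_fixed (hΦ : DiscFacts Φ) {n : ℕ} {σ : SemilinearAut K F}
    (hσ : PreservesDiscs Φ σ) {𝔠 : Chart Φ n} (hfix : FixesChart σ 𝔠) {τ : Fin n → K}
    {X : Fin n → Place K F} (hdisc : ∀ i, X i ∈ Φ.disc (𝔠.Q i))
    (hval : ∀ i, ValueAt (X i) (𝔠.pt i).t (τ i)) (i : Fin n)
    (hτ : SemilinearAut.baseAut σ (τ i) = τ i) : σ • X i = X i := by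
  have h1 := (valueAt_smul_iff σ (X i) (𝔠.pt i).t (τ i)).2 (hval i)
  rw [(hfix i).2, hτ] at h1
  exact hΦ.disc_inj (𝔠.pt i) (τ i) (σ • X i) (X i) (hσ _ _ (hdisc i)) (hdisc i) h1 (hval i)

/-- the coordinate divisor of fixed points in a fixed chart is fixed. -/
theorem smul_coordDiv {n : ℕ} {σ : SemilinearAut K F} {𝔠 : Chart Φ n} (hfix : FixesChart σ 𝔠)
    {X : Fin n → Place K F} (hX : ∀ i, σ • X i = X i) :
    σ • ((∑ i, Finsupp.single (X i) (1 : ℤ)) - 𝔠.D0) =
      (∑ i, Finsupp.single (X i) (1 : ℤ)) - 𝔠.D0 := by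
  rw [smul_sub, smul_D0_of_fixed hfix, Finset.smul_sum]
  congr 1
  exact Finset.sum_congr rfl fun i _ => by rw [SemilinearAut.smul_single, hX i]

end Fixed

section Main

variable {K F k Ft1 Ft2 Sp 𝒬 : Type*} [Field K] [Field F] [Algebra K F] [Field k]
  [Field Ft1] [Algebra k Ft1] [Field Ft2] [Algebra k Ft2] [CommRing Sp] [Algebra k Sp]
variable {R1 : RedData K F k Ft1} {R2 : RedData K F k Ft2}
variable {ι : Type*} {P : ι → Place k Ft1} {Q : ι → Place k Ft2}
variable {Φ : DiscData K F k Sp 𝒬}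

/-- **step (a) of GF-ASFORM, abstract**: the chart representative of an `S`-invariant admissible
class is `S`-fixed, lies in `L(p • D0)` and is admissible up to a constant. -/
theorem exists_fixed_adm_rep (hc : RedCompat R1 R2) (hF : DiscFacts Φ) {n : ℕ}
    (p : ℕ) [Fact p.Prime] [CharP k p] (hperf : ∀ c : k, ∃ κ : k, κ ^ p = c)
    (hP : ∀ j, (P j).deg = 1) (hQ : ∀ j, (Q j).deg = 1)
    (unram1 : ∀ y : F, y ≠ 0 → ∃ c : K, c ≠ 0 ∧ algebraMap K F c * y ∈ R1.Rw ∧
      (algebraMap K F c * y)⁻¹ ∈ R1.Rw)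
    (unram2 : ∀ y : F, y ≠ 0 → ∃ c : K, c ≠ 0 ∧ algebraMap K F c * y ∈ R2.Rw ∧
      (algebraMap K F c * y)⁻¹ ∈ R2.Rw)
    (𝔠 : Chart Φ n) {E₁ : Divisor k Ft1} {E₂ : Divisor k Ft2}
    (hNS : ∀ z ∈ glued P Q E₁ E₂, ∃ d : k, z = (algebraMap k Ft1 d, algebraMap k Ft2 d))
    (hL5 : ∀ (x : F) (h1 : x ∈ R1.Rw) (h2 : x ∈ R2.Rw),
      x ∈ riemannRochSpace ((p : ℤ) • 𝔠.D0) →
      (R1.red ⟨x, h1⟩, R2.red ⟨x, h2⟩) ∈ glued P Q ((p : ℤ) • E₁) ((p : ℤ) • E₂))
    (hu : CoordUnique Φ n)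
    (hconst : ∀ f : F, (∀ v : Place K F, v.ord f = 0) → ∃ c : K, f = algebraMap K F c)
    (S : Set (SemilinearAut K F)) (hS : ∀ σ ∈ S, PreservesDiscs Φ σ) (ν : Normaliser S)
    (hfix : ∀ σ ∈ S, FixesChart σ 𝔠)
    {ξ : Pic0 K F} (hξadm : ξ ∈ admClasses (Adm2 R1 R2) p) (hξ : ∀ σ ∈ S, σ • ξ = ξ)
    {τ : Fin n → K} (hτ : IsCoord 𝔠 ξ τ) :
    ∃ (X : Fin n → Place K F) (g : F) (a : K), g ≠ 0 ∧ a ≠ 0 ∧
      (∀ i, X i ∈ Φ.disc (𝔠.Q i)) ∧ (∀ i, ValueAt (X i) (𝔠.pt i).t (τ i)) ∧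
      (∀ σ ∈ S, ∀ i, SemilinearAut.baseAut σ (τ i) = τ i) ∧
      (∀ σ ∈ S, ∀ i, σ • X i = X i) ∧
      (∀ v : Place K F, v.ord g = (p : ℤ) * ((∑ i, Finsupp.single (X i) (1 : ℤ)) - 𝔠.D0) v) ∧
      (∃ hdeg : (∑ i, Finsupp.single (X i) (1 : ℤ)) - 𝔠.D0 ∈
          Divisor.degZero (K := K) (F := F), Pic0.mk ⟨_, hdeg⟩ = ξ) ∧
      (∀ σ ∈ S, σ • g = g) ∧ ν.lc g = 1 ∧
      g ∈ riemannRochSpace ((p : ℤ) • 𝔠.D0) ∧
      Adm2 R1 R2 (algebraMap K F a * g) := by
  have hp : (p : ℕ).Prime := Fact.out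
  have hτfix : ∀ σ ∈ S, ∀ i, SemilinearAut.baseAut σ (τ i) = τ i := fun σ hσ i =>
    coord_fixed hu (hS σ hσ) (hfix σ hσ) (hξ σ hσ) hτ i
  obtain ⟨X, hXdisc, hXval, hdeg, hXξ⟩ := hτ
  have hXfix : ∀ σ ∈ S, ∀ i, σ • X i = X i := fun σ hσ i =>
    point_fixed hF (hS σ hσ) (hfix σ hσ) hXdisc hXval i (hτfix σ hσ i)
  obtain ⟨u, hu0, hadm, D, hD, hξD⟩ := hξadm
  -- `Σ X − D0 = D + div h`
  set DX : Divisor K F := (∑ i, Finsupp.single (X i) (1 : ℤ)) - 𝔠.D0 with hDX
  have hprin : DX - (D : Divisor K F) ∈ Divisor.principal (K := K) (F := F) := by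
    have h1 : Pic0.mk ⟨DX, hdeg⟩ = Pic0.mk D := by rw [hXξ, hξD]
    have h2 := (QuotientAddGroup.eq).mp h1
    rw [AddSubgroup.mem_addSubgroupOf, AddSubgroup.coe_add, AddSubgroup.coe_neg] at h2
    have h3 : -(-(DX : Divisor K F) + (D : Divisor K F)) ∈
        Divisor.principal (K := K) (F := F) := neg_mem h2
    have h4 : -(-(DX : Divisor K F) + (D : Divisor K F)) = DX - (D : Divisor K F) := by abel
    rwa [h4] at h3
  obtain ⟨h, hh0, hh⟩ := hprin
  -- the function `g₀ = u h ^ p`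
  have hhp0 : h ^ p ≠ 0 := pow_ne_zero p hh0
  have hg₀0 : u * h ^ p ≠ 0 := mul_ne_zero hu0 hhp0
  have hg₀ord : ∀ v : Place K F, v.ord (u * h ^ p) = (p : ℤ) * DX v := by
    intro v
    have h1 := hh v
    rw [Finsupp.sub_apply] at h1
    rw [v.ord_mul hu0 hhp0, Fermat.Agent.GJ.Kum.DivBasic.ord_pow_natCast, ← hD v, ← h1]
    ring
  have hD0nn : ∀ v : Place K F, 0 ≤ 𝔠.D0 v := fun v => sum_single_apply_nonneg _ v
  have hXnn : ∀ v : Place K F, 0 ≤ (∑ i, Finsupp.single (X i) (1 : ℤ)) v := fun v =>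
    sum_single_apply_nonneg X v
  have hpZ : (0 : ℤ) ≤ p := Int.natCast_nonneg p
  have hmemL : ∀ y : F, (∀ v : Place K F, v.ord y = (p : ℤ) * DX v) →
      y ∈ riemannRochSpace ((p : ℤ) • 𝔠.D0) := by
    intro y hy
    rw [mem_riemannRochSpace_iff]
    intro v
    right
    rw [hy v, hDX, Finsupp.sub_apply, Finsupp.smul_apply, smul_eq_mul]
    have := hXnn v
    nlinarith [hD0nn v]
  have hg₀L : u * h ^ p ∈ riemannRochSpace ((p : ℤ) • 𝔠.D0) := hmemL _ hg₀ord
  -- (★): admissible up to a constant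
  obtain ⟨a, ha0, ha1, ha2⟩ := exists_isCst_smul hc p hperf hP hQ unram1 unram2 hNS hL5
    hadm.1 hadm.2 hh0 hg₀L
  -- the divisor is invariant, so the normalised generator is fixed
  have hDXfix : ∀ σ ∈ S, σ • DX = DX := fun σ hσ => smul_coordDiv (hfix σ hσ) (hXfix σ hσ)
  have hdivfix : ∀ σ ∈ S, ∀ v : Place K F, v.ord (σ • (u * h ^ p)) = v.ord (u * h ^ p) := by
    intro σ hσ v
    have h1 : v.ord (σ • (u * h ^ p)) = (σ⁻¹ • v).ord (u * h ^ p) := by
      have := SemilinearAut.ord_smul (g := σ) (v := σ⁻¹ • v) (u * h ^ p)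
      rwa [smul_inv_smul] at this
    rw [h1, hg₀ord, hg₀ord, ← SemilinearAut.divisor_smul_apply, hDXfix σ hσ]
  obtain ⟨c, hc0, hcfix, hclc⟩ := exists_fixed_generator hconst ν hg₀0 hdivfix
  have hcF : algebraMap K F c ≠ 0 := (map_ne_zero (algebraMap K F)).mpr hc0
  have hgord : ∀ v : Place K F, v.ord (algebraMap K F c * (u * h ^ p)) = (p : ℤ) * DX v := by
    intro v
    rw [v.ord_mul hcF hg₀0, Fermat.Agent.S24.PlaceB.ord_algebraMap v hc0, zero_add, hg₀ord]
  refine ⟨X, algebraMap K F c * (u * h ^ p), a * c⁻¹, mul_ne_zero hcF hg₀0,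
    mul_ne_zero ha0 (inv_ne_zero hc0), hXdisc, hXval, hτfix, hXfix, hgord, ⟨hdeg, hXξ⟩, hcfix,
    hclc, hmemL _ hgord, ?_⟩
  have e : algebraMap K F (a * c⁻¹) * (algebraMap K F c * (u * h ^ p)) =
      algebraMap K F a * (u * h ^ p) := by
    rw [map_mul, map_inv₀]
    field_simp
  rw [e]
  exact ⟨ha1, ha2⟩

end Main

section Approx

variable {K F k Ft : Type*} [Field K] [Field F] [Algebra K F] [Field k] [Field Ft] [Algebra k Ft]
variable (R : RedData K F k Ft)

theorem val_algebraMap_le_one_iff (x : K) :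
    R.Rw.valuation (algebraMap K F x) ≤ 1 ↔ R.A.valuation x ≤ 1 := by
  rw [R.Rw.valuation_le_one_iff, R.A.valuation_le_one_iff, R.mem_A_iff]

theorem val_algebraMap_eq_one_iff (x : K) :
    R.Rw.valuation (algebraMap K F x) = 1 ↔ R.A.valuation x = 1 := by
  by_cases hx : x = 0
  · subst hx
    simp
  have hxF : algebraMap K F x ≠ 0 := (map_ne_zero (algebraMap K F)).mpr hx
  have h1 := val_algebraMap_le_one_iff R x
  have h2 := val_algebraMap_le_one_iff R x⁻¹
  rw [map_inv₀, map_inv₀, map_inv₀] at h2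
  have hvF : 0 < R.Rw.valuation (algebraMap K F x) :=
    zero_lt_iff.mpr ((Valuation.ne_zero_iff _).mpr hxF)
  have hvK : 0 < R.A.valuation x := zero_lt_iff.mpr ((Valuation.ne_zero_iff _).mpr hx)
  rw [inv_le_one₀ hvF, inv_le_one₀ hvK] at h2
  constructor
  · intro h
    exact le_antisymm (h1.1 h.le) (h2.1 h.ge)
  · intro h
    exact le_antisymm (h1.2 h.le) (h2.2 h.ge)

theorem val_algebraMap_lt_one_iff (x : K) :
    R.Rw.valuation (algebraMap K F x) < 1 ↔ R.A.valuation x < 1 := by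
  rw [lt_iff_le_and_ne, lt_iff_le_and_ne, val_algebraMap_le_one_iff, Ne, Ne,
    val_algebraMap_eq_one_iff]

variable {R}

/-- **a rational function with constant reduction is congruent to a RATIONAL constant**: `S`-fixed
functions have `S`-fixed norms (`hval`) and unit constants have `S`-fixed Teichmüller-type
approximations (`hteich`). -/
theorem exists_fixed_const_of_isCst (S : Set (SemilinearAut K F))
    (hval : ∀ g : F, g ≠ 0 → (∀ σ ∈ S, σ • g = g) → ∃ c : K, c ≠ 0 ∧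
      (∀ σ ∈ S, SemilinearAut.baseAut σ c = c) ∧
      R.Rw.valuation g = R.Rw.valuation (algebraMap K F c))
    (hteich : ∀ d : K, R.A.valuation d = 1 → ∃ d' : K,
      (∀ σ ∈ S, SemilinearAut.baseAut σ d' = d') ∧ R.A.valuation (d - d') < 1)
    {g : F} (hg0 : g ≠ 0) (hgfix : ∀ σ ∈ S, σ • g = g) {a : K} (ha : a ≠ 0)
    (hadm : IsCst R (algebraMap K F a * g)) :
    ∃ a₁ : K, a₁ ≠ 0 ∧ (∀ σ ∈ S, SemilinearAut.baseAut σ a₁ = a₁) ∧
      R.Rw.valuation ((algebraMap K F a₁)⁻¹ * g - 1) < 1 := by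
  obtain ⟨b, hb1, hb⟩ := hadm
  obtain ⟨c₀, hc₀0, hc₀fix, hc₀val⟩ := hval g hg0 hgfix
  set w := R.Rw.valuation with hw
  have hbF : w (algebraMap K F b) = 1 := (val_algebraMap_eq_one_iff R b).2 hb1
  -- `w (a g) = 1`
  have hag : w (algebraMap K F a * g) = 1 := by
    have h1 : algebraMap K F a * g = algebraMap K F b + (algebraMap K F a * g - algebraMap K F b) := by
      ring
    rw [h1, w.map_add_eq_of_lt_left (by rw [hbF]; exact hb), hbF]
  -- `|a c₀| = 1`
  have hac₀F : w (algebraMap K F (a * c₀)) = 1 := by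
    rw [map_mul, map_mul, ← hc₀val, ← map_mul]
    exact hag
  have hac₀ : R.A.valuation (a * c₀) = 1 := (val_algebraMap_eq_one_iff R _).1 hac₀F
  have hac₀0 : a * c₀ ≠ 0 := mul_ne_zero ha hc₀0
  -- the unit constant `d = b / (a c₀)` and its fixed approximation
  have hd1 : R.A.valuation (b / (a * c₀)) = 1 := by rw [map_div₀, hb1, hac₀, div_one]
  obtain ⟨d', hd'fix, hdd'⟩ := hteich _ hd1
  have hd'1 : R.A.valuation d' = 1 := by
    have h1 : d' = b / (a * c₀) + -(b / (a * c₀) - d') := by ring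
    rw [h1, (R.A.valuation).map_add_eq_of_lt_left (by rw [Valuation.map_neg, hd1]; exact hdd'), hd1]
  have hd'0 : d' ≠ 0 := fun h => by rw [h, map_zero] at hd'1; exact zero_ne_one hd'1
  refine ⟨c₀ * d', mul_ne_zero hc₀0 hd'0, fun σ hσ => ?_, ?_⟩
  · rw [map_mul, hc₀fix σ hσ, hd'fix σ hσ]
  · have hacd0 : algebraMap K F (a * c₀ * d') ≠ 0 :=
      (map_ne_zero (algebraMap K F)).mpr (mul_ne_zero hac₀0 hd'0)
    have haF : algebraMap K F a ≠ 0 := (map_ne_zero (algebraMap K F)).mpr ha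
    have hc₀F : algebraMap K F c₀ ≠ 0 := (map_ne_zero (algebraMap K F)).mpr hc₀0
    have hd'F : algebraMap K F d' ≠ 0 := (map_ne_zero (algebraMap K F)).mpr hd'0
    have e : (algebraMap K F (c₀ * d'))⁻¹ * g - 1 =
        (algebraMap K F (a * c₀ * d'))⁻¹ *
          ((algebraMap K F a * g - algebraMap K F b) +
            algebraMap K F (a * c₀) * algebraMap K F (b / (a * c₀) - d')) := by
      simp only [map_mul, map_sub, map_div₀]
      field_simp
      ring
    rw [e, map_mul, map_inv₀]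
    have hv1 : w (algebraMap K F (a * c₀ * d')) = 1 := by
      rw [map_mul (algebraMap K F) (a * c₀) d', map_mul, hac₀F, one_mul]
      exact (val_algebraMap_eq_one_iff R d').2 hd'1
    rw [hv1, inv_one, one_mul]
    refine lt_of_le_of_lt (w.map_add _ _) (max_lt hb ?_)
    rw [map_mul, hac₀F, one_mul]
    exact (val_algebraMap_lt_one_iff R _).2 hdd'

end Approx

end Fermat.Agent.GF.KCover.ASRep

end
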