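/-
GATE-F (S44) / GF-ASFORM step (a), MODULAR PLUG (helper48; helper40 6436 §3, reader notes helper75 6477).

`N` a level with `p ∥ N`, `A | p`, the nodal frame `(ι, P, Q, c, n₀, FF, NH)` of `FieldsO`,
`Φ := pinData NH`, `𝔠₀` an `I_A`-FIXED chart of `Φ` (centres and parameters fixed:
`GS/Top/Inst/Gal.exists_fixed_chart_modular` / `GS/Gal/FixedChart2.exists_equivariant_chart_of_points`).

**`exists_rat_rep`**: every class `x ∈ M0Kum N A h p` fixed by a set `Γ ⊆ I_A` of automorphisms has a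
representative `g : pDivUnits` with
* `ofMul (Kum.mk g) = x` (sign: `kumJ N p x = [Σ X_i − D0]`, `div g = p • (Σ X_i − D0)`),
* `g ∈ ratUnits N Γ` (fixed coefficientwise by every `σ ∈ Γ`),
* `IsCst (redDataBar N A) g ∧ IsCst (redData2 N A h) g` (unit of both Gauss valuations with CONSTANT
  reductions: the start hypothesis of `GF/NormDepth/Inst/RatStart.exists_rat_deep_{one,two}_of_close`),
* `g ∈ L(p • 𝔠₀.D0)`, `div g = p • (Σ X_i − 𝔠₀.D0)` with `X_i` `Γ`-fixed in the disc of `𝔠₀.Q i`.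
-/
import Mathlib
import Fermat.Agent.GF.KCover.ASRep.RatRep
import Fermat.Agent.GS.Top.FrameNodeAll
import Fermat.Agent.GS.Top.Inst.Gal
import Fermat.Agent.GF.Shape.Plug
import Fermat.Agent.GF.NormDepth.Inst.RatModular
import Fermat.Agent.GF.KCover.Int.Modular

set_option autoImplicit false
set_option linter.unusedSectionVars false
set_option linter.unusedVariables false
set_option linter.style.haveILetI false

noncomputable section

open AlgebraicCurve ModularCurve IsLocalRing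

namespace Fermat.Agent.GF.KCover.ASRep

open Fermat.Agent.S24 Fermat.Agent.S24_helper62 Fermat.Agent.RRh45 Fermat.Agent.RR
open Fermat.Agent.GJ.J1 Fermat.Agent.GJ.J1.Val Fermat.Agent.GJ.J1.InstGen
open Fermat.Agent.GJ.KumGroup Fermat.Agent.GJ.Kum Fermat.Agent.GJ.Kum.KumType
open Fermat.Agent.GK.AL Fermat.Agent.GK.MultiVal Fermat.Agent.GK.SS Fermat.Agent.GK.BallTwo
open Fermat.Agent.GK.CuspSep Fermat.Agent.GK.SymChart Fermat.Agent.GK.SymDegree
open Fermat.Agent.GS.Nodal.LSR2 Fermat.Agent.GS.Nodal.Inst Fermat.Agent.GS.Nodal.SupplyPin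
open Fermat.Agent.GS.Nodal.DiscFacts2 Fermat.Agent.GS.Nodal.Node
open Fermat.Agent.GS.Frame Fermat.Agent.GS.Loc2.Ker Fermat.Agent.GS.Gal.FixChart
open Fermat.Agent.GS.F Fermat.Agent.GS.F.A2Plug Fermat.Agent.GS.Top.Inst.Gal
open Fermat.Agent.GF.Shape.Plug Fermat.Agent.GF.NormDepth.Inst Fermat.Agent.GF.KumDesc.Generic
open Fermat.Agent.GF.KCover.Int

local notation "GQ" => (AlgebraicClosure ℚ ≃ₐ[ℚ] AlgebraicClosure ℚ)

open scoped Classical

attribute [local instance] finiteResidues_FN hasPrincipalDivisors_FN nonempty_place_FN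
  isAlgClosed_res finiteResidues_Fres hasPrincipalDivisors_Fres nonempty_place_Fres

section Cst

variable {K F k Ft : Type*} [Field K] [Field F] [Algebra K F] [Field k] [Field Ft] [Algebra k Ft]
variable {R : RedData K F k Ft}

/-- a function with constant reduction is a unit of the valuation. -/
theorem val_eq_one_of_isCst {y : F} (hy : IsCst R y) : R.Rw.valuation y = 1 := by
  obtain ⟨e, he1, he⟩ := hy
  have heF : R.Rw.valuation (algebraMap K F e) = 1 := (val_algebraMap_eq_one_iff R e).2 he1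
  have h1 : y = algebraMap K F e + (y - algebraMap K F e) := by ring
  rw [h1, (R.Rw.valuation).map_add_eq_of_lt_left (by rw [heF]; exact he), heF]

/-- if `b • y` has constant reduction and `y` is a unit then `b` is a unit constant. -/
theorem val_const_eq_one_of_isCst {b : K} {y : F} (h : IsCst R (algebraMap K F b * y))
    (hy : R.Rw.valuation y = 1) : R.A.valuation b = 1 := by
  have h1 := val_eq_one_of_isCst h
  rw [map_mul, hy, mul_one] at h1
  exact (val_algebraMap_eq_one_iff R b).1 h1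

/-- constant reduction is insensitive to unit constants. -/
theorem isCst_of_const_mul {b : K} {y : F} (hb : R.A.valuation b = 1)
    (h : IsCst R (algebraMap K F b * y)) : IsCst R y := by
  obtain ⟨e, he1, he⟩ := h
  have hb0 : b ≠ 0 := fun h0 => by rw [h0, map_zero] at hb; exact zero_ne_one hb
  have hbF : algebraMap K F b ≠ 0 := (map_ne_zero (algebraMap K F)).mpr hb0
  refine ⟨e / b, by rw [map_div₀, he1, hb, div_one], ?_⟩
  have e1 : y - algebraMap K F (e / b) =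
      (algebraMap K F b)⁻¹ * (algebraMap K F b * y - algebraMap K F e) := by
    rw [map_div₀]
    field_simp
  rw [e1, map_mul, map_inv₀, (val_algebraMap_eq_one_iff R b).2 hb, inv_one, one_mul]
  exact he

end Cst

variable {N p : ℕ} [NeZero N] [Fact p.Prime] (h : ExactDvd p N) {A : ValuationSubring Kbar}

set_option maxHeartbeats 1600000 in
theorem exists_rat_rep (hA : A.LiesOverPrime p)
    {ι : Type} [Fintype ι] {P Q : ι → Place (ResidueField A) (FresBar N A)} {c : ℤ} {n₀ : ℕ}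
    (FF : FrameFacts N A h P Q)
    (NH : NodalHyp (redCompatFN N A h) P Q (CS N h) (Dτ N A p) (Dτ N A p)
      (genusRR Kbar (FN N)) c n₀)
    {n : ℕ} (hn : (n : ℤ) = genusRR Kbar (FN N))
    (𝔠₀ : Chart (pinData NH) n)
    (hfix : ∀ τ ∈ A.inertiaSubgroupIn ℚ,
      FixesChart (arithmeticGalois (modularFunctionFieldFull N) τ) 𝔠₀)
    {x : Additive (Kum Kbar (FN N) p)}
    (hx : haveI : NeZero p := ⟨(Fact.out : p.Prime).ne_zero⟩; x ∈ M0Kum N A h p)
    (Γ : Set GQ) (hΓI : Γ ⊆ ↑(A.inertiaSubgroupIn ℚ))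
    (hxΓ : ∀ σ ∈ Γ, KumType.gal N p σ x = x) :
    ∃ (g : pDivUnits Kbar (FN N) p) (X : Fin n → Place Kbar (FN N)),
      Additive.ofMul (Kum.mk g) = x ∧
      (g : (FN N)ˣ) ∈ ratUnits N Γ ∧
      IsCst (redDataBar N A) (((g : (FN N)ˣ) : FN N)) ∧
      IsCst (redData2 N A h) (((g : (FN N)ˣ) : FN N)) ∧
      (((g : (FN N)ˣ) : FN N)) ∈ riemannRochSpace ((p : ℤ) • 𝔠₀.D0) ∧
      (∀ i, X i ∈ (pinData NH).disc (𝔠₀.Q i)) ∧
      (∀ σ ∈ Γ, ∀ i, arithmeticGalois (modularFunctionFieldFull N) σ • X i = X i) ∧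
      (∀ v : Place Kbar (FN N), v.ord (((g : (FN N)ˣ) : FN N)) =
        (p : ℤ) * ((∑ i, Finsupp.single (X i) (1 : ℤ)) - 𝔠₀.D0) v) := by
  have hp : p.Prime := Fact.out
  haveI : NeZero p := ⟨hp.ne_zero⟩
  haveI : Nonempty ι := nonempty_of_frameFacts N A h hA FF
  haveI : Infinite (ResidueField A) := IsAlgClosed.instInfinite
  haveI : Infinite (Place (ResidueField A) (FresBar N A)) :=
    Fermat.Agent.GS.Top.FrameNodeAll.infinite_place_Fres N A
  haveI : CharP (ResidueField A) p := charP_res A hp hA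
  obtain ⟨hΦ, hsup, hadd, hun, hsm, hinj⟩ :=
    pin_target NH FF.injP FF.injQ (Fermat.Agent.GH.Inst.harch A hp hA) n hn
  -- the class in `J₀(N)` and its coordinates
  set ξ : JZero N := kumJ N p x with hξ
  have hξM : ξ ∈ M0mod N A h p := hx
  have hξadm := M0mod_subset_admClasses hξM
  obtain ⟨τ, hτ⟩ := coordExists_M0mod_nodal h hA NH (ff2_pin NH) hn FF.degP FF.degQ 𝔠₀ ξ hξM
  -- the set of semilinear automorphisms and its normaliser
  have hS : ∀ σ ∈ ratAuts N Γ, PreservesDiscs (pinData NH) σ := by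
    rintro _ ⟨σ, hσ, rfl⟩
    exact preservesDiscs_nodalData N A h NH (ff2_pin NH) (hΓI hσ)
  have hfixS : ∀ σ ∈ ratAuts N Γ, FixesChart σ 𝔠₀ := by
    rintro _ ⟨σ, hσ, rfl⟩
    exact hfix σ (hΓI hσ)
  have hξfix : ∀ σ ∈ ratAuts N Γ, σ • ξ = ξ := by
    rintro _ ⟨σ, hσ, rfl⟩
    have h1 := kumJ_gal N p σ x
    rw [hxΓ σ hσ] at h1
    exact h1.symm
  have hconst : ∀ f : FN N, (∀ v : Place Kbar (FN N), v.ord f = 0) →
      ∃ c : Kbar, f = algebraMap Kbar (FN N) c :=
    fun f h0 => Fermat.Agent.GH.TorsionCount.exists_const_FK N f h0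
  obtain ⟨E₁, E₂, hNS, hL5⟩ := chart_glue (Fermat.Agent.GS.Nodal.DiscFacts2.glueHyp_nodal NH (ff2_pin NH)) p
    (fun Qf _ X hX => l5p_of_nodal NH (ff2_pin NH)
      (Fermat.Agent.GS.Nodal.L5.hexcl_of_nodal NH (ff2_pin NH)) _ p Qf X hX) 𝔠₀
  obtain ⟨X, g₀, a, hg₀0, ha0, hXdisc, hXval, hτfix, hXfix, hg₀ord, ⟨hdeg, hXξ⟩, hg₀fix, hg₀lc,
    hg₀L, hg₀adm⟩ := exists_fixed_adm_rep (redCompatFN N A h) hΦ p (hperf_res A hp.pos)
      FF.degP FF.degQ (unram_redDataBar N A) (unram_redData2 N A h) 𝔠₀ hNS hL5 hun hconst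
      (ratAuts N Γ) hS (ratNormaliser N Γ) hfixS hξadm hξfix hτ
  -- rescale by a `Γ`-fixed constant to a unit of the first Gauss valuation
  have hg₀fix' : ∀ σ ∈ Γ, arithmeticRingAut (modularFunctionFieldFull N) σ g₀ = g₀ :=
    fun σ hσ => hg₀fix _ ⟨σ, hσ, rfl⟩
  obtain ⟨c', hc'0, hc'fix, hu1, hu1'⟩ := exists_fixed_const_mul_unit₁ N A Γ g₀ hg₀0 hg₀fix'
  have hc'F : algebraMap Kbar (FN N) c' ≠ 0 := (map_ne_zero (algebraMap Kbar (FN N))).mpr hc'0
  set g : FN N := algebraMap Kbar (FN N) c' * g₀ with hg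
  have hg0 : g ≠ 0 := mul_ne_zero hc'F hg₀0
  have hgval : (redDataBar N A).Rw.valuation g = 1 := by
    apply le_antisymm (((redDataBar N A).Rw.valuation_le_one_iff _).2 hu1)
    have h2 := ((redDataBar N A).Rw.valuation_le_one_iff _).2 hu1'
    rw [map_inv₀] at h2
    exact (inv_le_one₀ (zero_lt_iff.mpr ((Valuation.ne_zero_iff _).mpr hg0))).mp h2
  have hag : algebraMap Kbar (FN N) a * g₀ = algebraMap Kbar (FN N) (a / c') * g := by
    rw [hg, map_div₀]
    field_simp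
  have hadm1 : IsCst (redDataBar N A) (algebraMap Kbar (FN N) (a / c') * g) := hag ▸ hg₀adm.1
  have hadm2 : IsCst (redData2 N A h) (algebraMap Kbar (FN N) (a / c') * g) := hag ▸ hg₀adm.2
  have hb1 : (redDataBar N A).A.valuation (a / c') = 1 := val_const_eq_one_of_isCst hadm1 hgval
  have hb2 : (redData2 N A h).A.valuation (a / c') = 1 := hb1
  have hcst1 : IsCst (redDataBar N A) g := isCst_of_const_mul hb1 hadm1
  have hcst2 : IsCst (redData2 N A h) g := isCst_of_const_mul hb2 hadm2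
  -- the divisor of `g`
  have hgord : ∀ v : Place Kbar (FN N), v.ord g =
      (p : ℤ) * ((∑ i, Finsupp.single (X i) (1 : ℤ)) - 𝔠₀.D0) v := by
    intro v
    rw [hg, v.ord_mul hc'F hg₀0, Fermat.Agent.S24.PlaceB.ord_algebraMap v hc'0, zero_add, hg₀ord]
  have hgL : g ∈ riemannRochSpace ((p : ℤ) • 𝔠₀.D0) := by
    rw [hg, ← Algebra.smul_def]
    exact (riemannRochSpace ((p : ℤ) • 𝔠₀.D0)).smul_mem c' hg₀L
  -- packaging
  have hgmem : Units.mk0 g hg0 ∈ pDivUnits Kbar (FN N) p := by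
    intro v
    show (p : ℤ) ∣ v.ord g
    rw [hgord v]
    exact dvd_mul_right _ _
  refine ⟨⟨Units.mk0 g hg0, hgmem⟩, X, ?_, ?_, hcst1, hcst2, hgL, hXdisc,
    fun σ hσ i => hXfix _ ⟨σ, hσ, rfl⟩ i, hgord⟩
  · -- the class
    apply kumJ_injective N p
    show kumJ N p (Additive.ofMul (Kum.mk ⟨Units.mk0 g hg0, hgmem⟩)) = ξ
    rw [← hXξ]
    have h1 : kumJ N p (Additive.ofMul (Kum.mk ⟨Units.mk0 g hg0, hgmem⟩)) =
        Pic0.mk ⟨Fermat.Agent.GH.KummerPic.divDiv p ⟨Units.mk0 g hg0, hgmem⟩,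
          Fermat.Agent.GH.KummerPic.degree_divDiv p ⟨Units.mk0 g hg0, hgmem⟩⟩ := rfl
    rw [h1]
    refine congrArg Pic0.mk (Subtype.ext (Finsupp.ext fun v => ?_))
    show Fermat.Agent.GH.KummerPic.divDiv p ⟨Units.mk0 g hg0, hgmem⟩ v = _
    rw [Fermat.Agent.GH.KummerPic.divDiv_apply]
    show v.ord g / (p : ℤ) = _
    rw [hgord v]
    exact Int.mul_ediv_cancel_left _ (Int.natCast_ne_zero.mpr hp.ne_zero)
  · -- rationality
    intro σ hσ
    apply Units.ext
    show arithmeticRingAut (modularFunctionFieldFull N) σ g = g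
    rw [hg, map_mul, hg₀fix' σ hσ, arithmeticRingAut_algebraMap]
    congr 2
    exact hc'fix σ hσ

/-- **an `I_A`-fixed chart of the pinned nodal frame off any finite set of special points** (e.g. the
reductions of the cusps): the chart of `exists_rat_rep`, with `n = genus`. -/
theorem exists_fixed_chart_off (hA : A.LiesOverPrime p)
    {ι : Type} [Fintype ι] {P Q : ι → Place (ResidueField A) (FresBar N A)} {c : ℤ} {n₀ : ℕ}
    (FF : FrameFacts N A h P Q)
    (NH : NodalHyp (redCompatFN N A h) P Q (CS N h) (Dτ N A p) (Dτ N A p)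
      (genusRR Kbar (FN N)) c n₀)
    (S' : Finset (Fermat.Agent.GS.Frame.Glue.SpPt
      (Fermat.Agent.GS.Nodal.FibreHyp2.fibreHyp1_of_nodal NH (ff2_pin NH))
      (Fermat.Agent.GS.Nodal.FibreHyp2.fibreHyp2_of_nodal NH (ff2_pin NH)))) :
    ∃ (n : ℕ) (_ : (n : ℤ) = genusRR Kbar (FN N)) (𝔠₀ : Chart (pinData NH) n),
      (∀ i, 𝔠₀.Q i ∉ S') ∧
      ∀ τ ∈ A.inertiaSubgroupIn ℚ,
        FixesChart (arithmeticGalois (modularFunctionFieldFull N) τ) 𝔠₀ := by
  have hp : p.Prime := Fact.out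
  haveI : NeZero p := ⟨hp.ne_zero⟩
  haveI : Nonempty ι := nonempty_of_frameFacts N A h hA FF
  haveI : Infinite (ResidueField A) := IsAlgClosed.instInfinite
  haveI : Infinite (Place (ResidueField A) (FresBar N A)) :=
    Fermat.Agent.GS.Top.FrameNodeAll.infinite_place_Fres N A
  have hg : 0 ≤ genusRR Kbar (FN N) := by
    have h1 := genusRR_eq_of_frameFacts N A h hA FF
    have h2 : 0 < Fintype.card ι := Fintype.card_pos
    have h3 : (0 : ℤ) < (Fintype.card ι : ℤ) := by exact_mod_cast h2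
    have h4 : (0 : ℤ) ≤ (genusFF (ResidueField A) (FresBar N A) : ℤ) := Int.natCast_nonneg _
    linarith
  obtain ⟨n, hn⟩ : ∃ n : ℕ, (n : ℤ) = genusRR Kbar (FN N) :=
    ⟨(genusRR Kbar (FN N)).toNat, Int.toNat_of_nonneg hg⟩
  obtain ⟨-, hsup, -, -, -, -⟩ :=
    pin_target NH FF.injP FF.injQ (Fermat.Agent.GH.Inst.harch A hp hA) n hn
  obtain ⟨𝔠₀, hoff, hfix, -⟩ :=
    Fermat.Agent.GS.Gal.FixedChart2.exists_equivariant_chart_of_points N A h NH (ff2_pin NH) hsup
      (Fermat.Agent.GS.Gal.FixedChart2.excSet N A h NH (ff2_pin NH) ∪ S')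
      (fun s hs => Fermat.Agent.GS.Gal.FixedChart2.exists_fixed_cpt N A h hA NH (ff2_pin NH)
        (fun _ hq => hq.1) (fun _ hq => hq.1) s
        (fun hmem => hs (Finset.mem_union_left _ hmem)))
  exact ⟨n, hn, 𝔠₀, fun i hmem => hoff i (Finset.mem_union_right _ hmem),
    fun τ hτ => hfix _ ⟨τ, hτ, rfl⟩⟩

end Fermat.Agent.GF.KCover.ASRep

end
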