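/-
GATE-F (S44) / GF-ASFORM step (a), ADD-ON (helper48; helper13 6555 (iii)): **the chart representative is
regular and nonzero at the cusps** (at every place outside the chart discs).

* `exists_fixed_chart_off_places` : an `I_A`-fixed chart of the pinned nodal frame whose discs contain
  NO place of a given finite set `T` (e.g. the cusps) — no dictionary fact about `T` is needed: a
  place lies in at most one residue disc, and that special point is avoided.
* `ord_eq_zero_of_forall_notMem_disc` : `div g = p • (Σ X_i − D0)`, `X_i` and the centres in the chart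
  discs ⟹ `v.ord g = 0` at every place `v` outside the chart discs.
* `exists_rat_rep_off` : `exists_rat_rep` with the extra conclusion
  `∀ v, (∀ i, v ∉ disc (𝔠₀.Q i)) → v.ord g = 0`.
-/
import Mathlib
import Fermat.Agent.GF.KCover.ASRep.RatRepMod

set_option autoImplicit false
set_option linter.unusedSectionVars false
set_option linter.unusedVariables false
set_option linter.style.haveILetI false

noncomputable section

open AlgebraicCurve ModularCurve IsLocalRing

namespace Fermat.Agent.GF.KCover.ASRep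

open Fermat.Agent.S24 Fermat.Agent.S24_helper62 Fermat.Agent.RRh45 Fermat.Agent.RR
open Fermat.Agent.GJ.J1 Fermat.Agent.GJ.J1.Val Fermat.Agent.GJ.J1.InstGen
open Fermat.Agent.GJ.KumGroup Fermat.Agent.GJ.Kum Fermat.Agent.GJ.Kum.KumType
open Fermat.Agent.GK.AL Fermat.Agent.GK.MultiVal Fermat.Agent.GK.SS Fermat.Agent.GK.BallTwo
open Fermat.Agent.GS.Nodal.LSR2 Fermat.Agent.GS.Nodal.Inst Fermat.Agent.GS.Nodal.SupplyPin
open Fermat.Agent.GS.Frame Fermat.Agent.GS.Loc2.Ker Fermat.Agent.GS.Gal.FixChart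
open Fermat.Agent.GF.Shape.Plug Fermat.Agent.GF.NormDepth.Inst

local notation "GQ" => (AlgebraicClosure ℚ ≃ₐ[ℚ] AlgebraicClosure ℚ)

open scoped Classical

attribute [local instance] finiteResidues_FN hasPrincipalDivisors_FN nonempty_place_FN
  isAlgClosed_res finiteResidues_Fres hasPrincipalDivisors_Fres nonempty_place_Fres

section Abstract

variable {K F k Sp 𝒬 : Type*} [Field K] [Field F] [Algebra K F] [Field k]
  [CommRing Sp] [Algebra k Sp]
variable {Φ : DiscData K F k Sp 𝒬}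

/-- the special points whose discs meet a finite set of places. -/
theorem exists_finset_discs (T : Finset (Place K F)) :
    ∃ S : Finset 𝒬, ∀ Q : 𝒬, Q ∉ S → ∀ v ∈ T, v ∉ Φ.disc Q := by
  induction T using Finset.induction_on with
  | empty => exact ⟨∅, fun _ _ v hv => absurd hv (Finset.notMem_empty v)⟩
  | insert v T hvT ih =>
    obtain ⟨S, hS⟩ := ih
    by_cases hv : ∃ Q : 𝒬, v ∈ Φ.disc Q
    · obtain ⟨Q₀, hQ₀⟩ := hv
      refine ⟨insert Q₀ S, fun Q hQ w hw => ?_⟩
      rw [Finset.mem_insert, not_or] at hQ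
      rcases Finset.mem_insert.mp hw with rfl | hw
      · exact fun hmem => Φ.disc_disjoint (Ne.symm hQ.1) w hQ₀ hmem
      · exact hS Q hQ.2 w hw
    · refine ⟨S, fun Q hQ w hw => ?_⟩
      rcases Finset.mem_insert.mp hw with rfl | hw
      · exact fun hmem => hv ⟨Q, hmem⟩
      · exact hS Q hQ w hw

/-- a function with divisor `m • (Σ X_i − D0)` has neither zero nor pole outside the chart discs. -/
theorem ord_eq_zero_of_forall_notMem_disc {n : ℕ} (𝔠 : Chart Φ n) {X : Fin n → Place K F}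
    (hX : ∀ i, X i ∈ Φ.disc (𝔠.Q i)) {g : F} {m : ℤ}
    (hg : ∀ v : Place K F, v.ord g = m * ((∑ i, Finsupp.single (X i) (1 : ℤ)) - 𝔠.D0) v)
    {v : Place K F} (hv : ∀ i, v ∉ Φ.disc (𝔠.Q i)) : v.ord g = 0 := by
  rw [hg v, Finsupp.sub_apply, Chart.D0, Finsupp.finsetSum_apply, Finsupp.finsetSum_apply]
  have h1 : ∀ i ∈ Finset.univ, (Finsupp.single (X i) (1 : ℤ)) v = 0 := fun i _ =>
    Finsupp.single_eq_of_ne (fun h => hv i (h ▸ hX i))
  have h2 : ∀ i ∈ Finset.univ, (Finsupp.single ((𝔠.pt i).P) (1 : ℤ)) v = 0 := fun i _ =>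
    Finsupp.single_eq_of_ne (fun h => hv i (h ▸ (𝔠.pt i).hP))
  rw [Finset.sum_eq_zero h1, Finset.sum_eq_zero h2, sub_zero, mul_zero]

end Abstract

variable {N p : ℕ} [NeZero N] [Fact p.Prime] (h : ExactDvd p N) {A : ValuationSubring Kbar}

/-- **an `I_A`-fixed chart whose discs avoid a finite set of places** (e.g. the cusps). -/
theorem exists_fixed_chart_off_places (hA : A.LiesOverPrime p)
    {ι : Type} [Fintype ι] {P Q : ι → Place (ResidueField A) (FresBar N A)} {c : ℤ} {n₀ : ℕ}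
    (FF : FrameFacts N A h P Q)
    (NH : NodalHyp (redCompatFN N A h) P Q (CS N h) (Dτ N A p) (Dτ N A p)
      (genusRR Kbar (FN N)) c n₀)
    (T : Finset (Place Kbar (FN N))) :
    ∃ (n : ℕ) (_ : (n : ℤ) = genusRR Kbar (FN N)) (𝔠₀ : Chart (pinData NH) n),
      (∀ i, ∀ v ∈ T, v ∉ (pinData NH).disc (𝔠₀.Q i)) ∧
      ∀ τ ∈ A.inertiaSubgroupIn ℚ,
        FixesChart (arithmeticGalois (modularFunctionFieldFull N) τ) 𝔠₀ := by
  haveI : Infinite (ResidueField A) := IsAlgClosed.instInfinite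
  obtain ⟨S, hS⟩ := exists_finset_discs (Φ := pinData NH) T
  obtain ⟨n, hn, 𝔠₀, hoff, hfix⟩ := exists_fixed_chart_off h hA FF NH S
  exact ⟨n, hn, 𝔠₀, fun i => hS _ (hoff i), hfix⟩

/-- **`exists_rat_rep` + no zero and no pole outside the chart discs.** -/
theorem exists_rat_rep_off (hA : A.LiesOverPrime p)
    {ι : Type} [Fintype ι] {P Q : ι → Place (ResidueField A) (FresBar N A)} {c : ℤ} {n₀ : ℕ}
    (FF : FrameFacts N A h P Q)
    (NH : NodalHyp (redCompatFN N A h) P Q (CS N h) (Dτ N A p) (Dτ N A p)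
      (genusRR Kbar (FN N)) c n₀)
    {n : ℕ} (hn : (n : ℤ) = genusRR Kbar (FN N))
    (𝔠₀ : Chart (pinData NH) n)
    (hfix : ∀ τ ∈ A.inertiaSubgroupIn ℚ,
      FixesChart (arithmeticGalois (modularFunctionFieldFull N) τ) 𝔠₀)
    {x : Additive (Kum Kbar (FN N) p)}
    (hx : haveI : NeZero p := ⟨(Fact.out : p.Prime).ne_zero⟩; x ∈ M0Kum N A h p)
    (Γ : Set GQ) (hΓI : Γ ⊆ ↑(A.inertiaSubgroupIn ℚ))
    (hxΓ : ∀ σ ∈ Γ, KumType.gal N p σ x = x) :
    ∃ g : pDivUnits Kbar (FN N) p,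
      Additive.ofMul (Kum.mk g) = x ∧
      (g : (FN N)ˣ) ∈ ratUnits N Γ ∧
      IsCst (redDataBar N A) (((g : (FN N)ˣ) : FN N)) ∧
      IsCst (redData2 N A h) (((g : (FN N)ˣ) : FN N)) ∧
      (((g : (FN N)ˣ) : FN N)) ∈ riemannRochSpace ((p : ℤ) • 𝔠₀.D0) ∧
      ∀ v : Place Kbar (FN N), (∀ i, v ∉ (pinData NH).disc (𝔠₀.Q i)) →
        v.ord (((g : (FN N)ˣ) : FN N)) = 0 := by
  haveI : Infinite (ResidueField A) := IsAlgClosed.instInfinite
  obtain ⟨g, X, hcl, hrat, h1, h2, hL, hXdisc, -, hord⟩ :=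
    exists_rat_rep h hA FF NH hn 𝔠₀ hfix hx Γ hΓI hxΓ
  exact ⟨g, hcl, hrat, h1, h2, hL, fun v hv =>
    ord_eq_zero_of_forall_notMem_disc 𝔠₀ hXdisc hord hv⟩

end Fermat.Agent.GF.KCover.ASRep

end
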