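/-
GATE-F (S44) / node GF-DEEPREP-PLUG (helper62; helper13 6782 (N1)).
**The two deep `K'`-rational representatives `DeepRep T V_i` of the Kummer function of a tame datum
`T` whose class lies in `M⁰ ∩ Knew`** — the only input of helper3's `WDataOf.exists_root` /
`WDataFinal.wDataOfDeep` (the roots `γ_i` of helper31's `NodeSupply`).

Level `N' p`, `p ∥ N' p`, `A | p`, `Γ = I' = tameGroup A ζ`; nodal frame `(ι, P, Q, c, n₀, FF, NH)`.

* `deepRep_of_nrm`   : (B) a deep representative of `nrm g = g / lc_q g` for ANY `I'`-fixed `g` with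
  the class of `T.g` moves to `T.g₀` (`lc_q T.g₀ = 1`): `RepUnique.rep_unique`, `d := d * h⁻¹`;
* `exists_ratConst_of_isCst` : (C) a `Γ`-fixed unit constant close to a function with constant
  reduction (helper86 `exists_ratConst_close`);
* `goodPlace_of_mem_disc`, `goodPlace_chart` : the chart centres are good places;
* **`deepRep_of_mem`** : `[T.g] ∈ M⁰`, `aLow = bLow = 0`, `lc_q T.g₀ = 1` ⟹
  `DeepRep T (galVal1 ..) ∧ DeepRep T (galVal2 .. h)`
  (helper48 `exists_rat_rep` on an `I_A`-fixed chart + helper40 `exists_deepRep_nrm_tame`);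
* **`deepRep_of_lineData`** : the same in the `TropZeroT` / `NodeSupply` binder context
  (`[T.g] = a • D.w₀`, `D : LineData … C.Y0 (M0Kum …) cyc`, `C.Y0 ≤ eigQ`, `¬` residually modular of
  level `M'`).
-/
import Fermat.Agent.GF.KCover.ASRep.RatRepCusp
import Fermat.Agent.GF.KCover.ASFormNrm
import Fermat.Agent.GF.NormDepth.Inst.RatStart
import Fermat.Agent.GF.F2Asm.RepUnique
import Fermat.Agent.GF.KCover.Field.WDataFinal
import Fermat.Agent.GF.Setup.S0
import Fermat.Agent.GF.Shape.Sub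

set_option autoImplicit false
set_option linter.unusedSectionVars false
set_option linter.unusedVariables false
set_option linter.style.haveILetI false

noncomputable section

namespace Fermat.Agent.GF.KCover.ASRep.DeepRepPlug

open AlgebraicCurve ModularCurve IsLocalRing
open Fermat.Agent.S24 Fermat.Agent.S24_helper62 Fermat.Agent.RRh45 Fermat.Agent.RR
open Fermat.Agent.GJ.J1 Fermat.Agent.GJ.J1.Val Fermat.Agent.GJ.J1.InstGen
open Fermat.Agent.GK.UQ Fermat.Agent.GK.UTr Fermat.Agent.GK.UqKronecker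
open Fermat.Agent.GJ.KumGroup Fermat.Agent.GJ.Kum Fermat.Agent.GJ.Kum.KumType
open Fermat.Agent.GK.AL Fermat.Agent.GK.MultiVal Fermat.Agent.GK.SS Fermat.Agent.GK.BallTwo
open Fermat.Agent.GS.Nodal.LSR2 Fermat.Agent.GS.Nodal.Inst Fermat.Agent.GS.Nodal.SupplyPin
open Fermat.Agent.GS.Frame Fermat.Agent.GS.Loc2.Ker Fermat.Agent.GS.Gal.FixChart
open Fermat.Agent.GF.Shape.Plug Fermat.Agent.GF.NormDepth.Inst
open Fermat.Agent.GF.Peu Fermat.Agent.GF.KumDesc
open Fermat.Agent.GF.F2Asm.Inst Fermat.Agent.GF.F2Asm.TameSigma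
open Fermat.Agent.GF.KCover.ASFormDeep Fermat.Agent.GF.KCover.ASFormNrm
open Fermat.Agent.GF.KCover.Field.WDataOf Fermat.Agent.GF.KCover.Field.WDataFinal

local notation "GQ" => (AlgebraicClosure ℚ ≃ₐ[ℚ] AlgebraicClosure ℚ)
local notation "Qb" => AlgebraicClosure ℚ

open scoped Classical

attribute [local instance] finiteResidues_FN hasPrincipalDivisors_FN nonempty_place_FN
  isAlgClosed_res finiteResidues_Fres hasPrincipalDivisors_Fres nonempty_place_Fres

/-! ### (B) from the normalised representative to `T.g₀` -/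

section Move

variable {N : ℕ} [NeZero N] {p : ℕ} [hpF : Fact p.Prime] {A : ValuationSubring Qb} {ζ : Qb}

/-- **a deep representative of `g / lc_q g` is a deep representative of `T.g₀`**, for any
`I'`-fixed `g` in the Kummer class of `T.g` (`lc_q T.g₀ = 1`). -/
theorem deepRep_of_nrm (T : TameDatum N p A ζ) (hlc : (qEmb N T.g₀).leadingCoeff = 1)
    (g : pDivUnits Qb (FK N) p)
    (hcl : (Additive.ofMul (Kum.mk g) : Additive (Kum Qb (FK N) p)) =
      Additive.ofMul (Kum.mk T.g))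
    (hfix : (g : (FK N)ˣ) ∈ ratUnits N (tameSet A ζ))
    (V : GalVal N A)
    (hrep : ∃ d z : FK N,
      (∀ ρ : GQ, IsTameFix A ζ ρ → arithmeticRingAut (modularFunctionFieldFull N) ρ d = d) ∧
      (∀ ρ : GQ, IsTameFix A ζ ρ → arithmeticRingAut (modularFunctionFieldFull N) ρ z = z) ∧
      nrm N (((g : (FK N)ˣ) : FK N)) = d ^ p * z ∧
      V.W.valuation (z - 1) ≤ V.W.valuation (algebraMap Qb (FK N) ((p : ℕ) : Qb)) ^ 3) :
    DeepRep T V := by
  have hp : p.Prime := hpF.out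
  obtain ⟨d, z, hd, hz, hgdz, hdeep⟩ := hrep
  have hfix' : ∀ ρ : GQ, IsTameFix A ζ ρ →
      arithmeticGalois (modularFunctionFieldFull N) ρ •
        ((((nrmU g : pDivUnits Qb (FK N) p) : (FK N)ˣ) : FK N)) =
        (((nrmU g : pDivUnits Qb (FK N) p) : (FK N)ˣ) : FK N) := by
    intro ρ hρ
    have h1 := nrmU_mem_ratUnits hfix ρ hρ
    have h2 := congrArg (fun u : (FK N)ˣ => (u : FK N)) h1
    exact h2
  obtain ⟨h, hh0, hhfix, hrel⟩ := Fermat.Agent.GF.F2Asm.RepUnique.rep_unique T hlc (nrmU g)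
    (by rw [mk_nrmU hp.ne_zero]; exact hcl) hfix'
    (by rw [← Laurent.lcHom_apply]; exact lc_nrmU g)
  rw [coe_coe_nrmU] at hrel
  refine ⟨d * h⁻¹, z, ?_, mem_F₁.mpr hz, ?_, hdeep⟩
  · refine mem_F₁.mpr fun ρ hρ => ?_
    rw [map_mul, map_inv₀, hd ρ hρ]
    congr 2
    exact hhfix ρ hρ
  · have hhp : h ^ p ≠ 0 := pow_ne_zero _ hh0
    have h3 : T.g₀ * h ^ p = d ^ p * z := hrel.symm.trans hgdz
    rw [mul_pow, inv_pow]
    field_simp
    linear_combination h3

end Move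

/-! ### (C) the `Γ`-fixed unit constants -/

section Close

variable {N : ℕ} [NeZero N] {p : ℕ} {A : ValuationSubring Qb} {H : Set GQ}

/-- **a function with constant reduction is congruent to a `Γ`-fixed UNIT constant** (`H ⊆ I_A`;
helper86 `exists_ratConst_close`). -/
theorem exists_ratConst_of_isCst {k Ft : Type*} [Field k] [Field Ft] [Algebra k Ft]
    (R : RedData Qb (FK N) k Ft) (hRA : R.A = A) (hp : p.Prime)
    (hA : ((p : ℕ) : Qb) ∈ A.nonunits) (hH : H ⊆ A.inertiaSubgroupIn ℚ)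
    (g : (FK N)ˣ) (hg : IsCst R ((g : (FK N)ˣ) : FK N)) :
    ∃ a₀ ∈ ratConsts N H, R.Rw.valuation ((a₀ : (FK N)ˣ) : FK N) = 1 ∧
      R.Rw.valuation (((a₀⁻¹ * g : (FK N)ˣ) : FK N) - 1) < 1 := by
  have hgv : R.Rw.valuation ((g : (FK N)ˣ) : FK N) = 1 := val_eq_one_of_isCst hg
  obtain ⟨c, hc1, hclose⟩ := hg
  have hcA : c ∈ A := by
    rw [← hRA, ← ValuationSubring.valuation_le_one_iff, hc1]
  have hcu : c ∉ A.nonunits := by
    rw [← hRA, ValuationSubring.mem_nonunits_iff, hc1]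
    exact lt_irrefl _
  obtain ⟨a₀, ha₀, h0⟩ := exists_ratConst_close (H := H) R hRA hp hA hH g hcA hcu hclose
  refine ⟨a₀, ha₀, ?_, h0⟩
  set v := R.Rw.valuation with hv
  have h1 : v (((a₀⁻¹ * g : (FK N)ˣ) : FK N)) = 1 := by
    have e : (((a₀⁻¹ * g : (FK N)ˣ) : FK N)) =
        1 + ((((a₀⁻¹ * g : (FK N)ˣ) : FK N)) - 1) := by ring
    rw [e, v.map_add_eq_of_lt_left (by rw [map_one]; exact h0), map_one]
  rw [Units.val_mul, Units.val_inv_eq_inv_val, map_mul, map_inv₀, hgv, mul_one] at h1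
  exact inv_eq_one.mp h1

end Close

/-! ### the chart centres are good places -/

section Good

variable {K F k Ft1 Ft2 : Type*} [Field K] [Field F] [Algebra K F] [Field k]
  [Field Ft1] [Algebra k Ft1] [Field Ft2] [Algebra k Ft2]
variable {R1 : RedData K F k Ft1} {R2 : RedData K F k Ft2} {hc : RedCompat R1 R2}
variable {ι : Type*} {P : ι → Place k Ft1} {Q : ι → Place k Ft2}
variable {C : Divisor K F} {C₁ : Divisor k Ft1} {C₂ : Divisor k Ft2} {g c : ℤ} {n₀ : ℕ}
variable [FiniteResidues K F] [HasPrincipalDivisors K F] [Nonempty (Place K F)]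
variable [FiniteResidues k Ft1] [HasPrincipalDivisors k Ft1] [Nonempty (Place k Ft1)]
variable [FiniteResidues k Ft2] [HasPrincipalDivisors k Ft2] [Nonempty (Place k Ft2)]
variable [Infinite k]

/-- a place in a residue disc of the pinned nodal frame is a good place. -/
theorem goodPlace_of_mem_disc (H : NodalHyp hc P Q C C₁ C₂ g c n₀)
    (s : Fermat.Agent.GS.Frame.Glue.SpPt
      (Fermat.Agent.GS.Nodal.FibreHyp2.fibreHyp1_of_nodal H (ff2_pin H))
      (Fermat.Agent.GS.Nodal.FibreHyp2.fibreHyp2_of_nodal H (ff2_pin H)))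
    {v : Place K F} (hv : v ∈ (pinData H).disc s) : GoodPlace H v := by
  rcases s with q | q
  · rw [Fermat.Agent.GS.Nodal.DiscFacts2.nodalData_disc_inl] at hv
    exact ⟨_, _, hv⟩
  · rw [Fermat.Agent.GS.Nodal.DiscFacts2.nodalData_disc_inr] at hv
    exact ⟨_, _, hv⟩

/-- the support of a multiple of the base divisor of a chart consists of good places. -/
theorem goodPlace_chart (H : NodalHyp hc P Q C C₁ C₂ g c n₀) {n : ℕ} (𝔠 : Chart (pinData H) n)
    (m : ℤ) : ∀ v ∈ (m • 𝔠.D0).support, GoodPlace H v := by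
  intro v hv
  have h1 : v ∈ (𝔠.D0).support := Finsupp.support_smul hv
  rw [Chart.D0] at h1
  obtain ⟨i, -, hi⟩ := Finset.mem_biUnion.mp (Finsupp.support_finsetSum h1)
  have h2 : v = (𝔠.pt i).P := by
    by_contra hne
    rw [Finsupp.mem_support_iff, Finsupp.single_apply, if_neg (fun h => hne h.symm)] at hi
    exact hi rfl
  rw [h2]
  exact goodPlace_of_mem_disc H (𝔠.Q i) (𝔠.pt i).hP

/-- a nonnegative multiple of the base divisor of a chart is effective. -/
theorem chart_smul_nonneg (H : NodalHyp hc P Q C C₁ C₂ g c n₀) {n : ℕ} (𝔠 : Chart (pinData H) n)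
    {m : ℤ} (hm : 0 ≤ m) : 0 ≤ m • 𝔠.D0 := by
  have h0 : (0 : Divisor K F) ≤ 𝔠.D0 := by
    rw [Chart.D0]
    exact Finset.sum_nonneg fun i _ => Finsupp.single_nonneg.mpr zero_le_one
  exact smul_nonneg hm h0

end Good

/-! ### the assembly -/

section Main

variable {N' p : ℕ} [NeZero N'] [Fact p.Prime] (h : ExactDvd p (N' * p))
  {A : ValuationSubring Qb} (hA : A.LiesOverPrime p) (hp2 : p ≠ 2) {ζ : Qb}

/-- the class of a tame datum is fixed by `I'`. -/
theorem gal_mk_tame {N : ℕ} [NeZero N] (T : TameDatum N p A ζ) :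
    ∀ σ ∈ tameSet A ζ, KumType.gal N p σ (Additive.ofMul (Kum.mk T.g)) =
      Additive.ofMul (Kum.mk T.g) := by
  intro σ hσ
  rw [gal_mk]
  congr 2
  apply Subtype.ext
  apply Units.ext
  exact T.fix σ hσ

set_option maxHeartbeats 1600000 in
include hA hp2 in
/-- **the two deep `K'`-rational representatives of `T.g₀`** for a tame datum whose class lies in
`M⁰ ∩ Knew`, normalised by `lc_q T.g₀ = 1`. -/
theorem deepRep_of_mem
    {ι : Type} [Fintype ι] {P Q : ι → Place (ResidueField A) (FresBar (N' * p) A)} {c : ℤ} {n₀ : ℕ}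
    (FF : FrameFacts (N' * p) A h P Q)
    (NH : NodalHyp (redCompatFN (N' * p) A h) P Q (CS (N' * p) h) (Dτ (N' * p) A p)
      (Dτ (N' * p) A p) (genusRR Qb (FN (N' * p))) c n₀)
    (T : TameDatum (N' * p) p A ζ) (hlc : (qEmb (N' * p) T.g₀).leadingCoeff = 1)
    (hM : haveI : NeZero p := ⟨(Fact.out : p.Prime).ne_zero⟩
      (Additive.ofMul (Kum.mk T.g) : Additive (Kum Qb (FK (N' * p)) p)) ∈ M0Kum (N' * p) A h p)
    (h1 : aLow N' p p (Additive.ofMul (Kum.mk T.g)) = 0)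
    (h2 : bLow h p (Additive.ofMul (Kum.mk T.g)) = 0) :
    DeepRep T (galVal1 (N' * p) A) ∧ DeepRep T (galVal2 (N' * p) A h) := by
  have hp : p.Prime := Fact.out
  haveI : NeZero p := ⟨hp.ne_zero⟩
  haveI : Nonempty ι := nonempty_of_frameFacts (N' * p) A h hA FF
  haveI : Infinite (ResidueField A) := IsAlgClosed.instInfinite
  -- an `I_A`-fixed chart and the chart representative of the class
  obtain ⟨n, hn, 𝔠₀, -, hfixc⟩ := exists_fixed_chart_off h hA FF NH ∅
  obtain ⟨g, X, hcl, hrat, hc1, hc2, hL, -, -, -⟩ :=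
    exists_rat_rep h hA FF NH hn 𝔠₀ hfixc hM (tameSet A ζ) tameSet_subset (gal_mk_tame T)
  -- the `Γ`-fixed unit constants
  obtain ⟨a₁, ha₁, ha₁U, h01⟩ := exists_ratConst_of_isCst (H := tameSet A ζ)
    (redDataBar (N' * p) A) rfl hp hA tameSet_subset (g : (FK (N' * p))ˣ) hc1
  obtain ⟨a₂, ha₂, ha₂U, h02⟩ := exists_ratConst_of_isCst (H := tameSet A ζ)
    (redData2 (N' * p) A h) rfl hp hA tameSet_subset (g : (FK (N' * p))ˣ) hc2
  -- helper40's constant-free deep representatives of `g / lc_q g`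
  have hpos : (0 : ℤ) ≤ (p : ℤ) := Int.natCast_nonneg p
  obtain ⟨hr₁, hr₂⟩ := exists_deepRep_nrm_tame h hA hp2 T.prim NH
    (chart_smul_nonneg NH 𝔠₀ hpos) (goodPlace_chart NH 𝔠₀ (p : ℤ)) g hrat
    (by rw [hcl]; exact h1) (by rw [hcl]; exact h2) hL ha₁ ha₂ ha₁U ha₂U h01 h02
  exact ⟨deepRep_of_nrm T hlc g hcl hrat (galVal1 (N' * p) A) hr₁,
    deepRep_of_nrm T hlc g hcl hrat (galVal2 (N' * p) A h) hr₂⟩

end Main

/-! ### the `TropZeroT` / `NodeSupply` binder context -/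

section Line

open Fermat.Agent.GF.Setup.Plane Fermat.Agent.GF.Setup.S0 Fermat.Agent.GF.Shape.Sub
open Fermat.Agent.GB.A.A6.EigQ

variable (W : WeierstrassCurve ℤ) {M' p : ℕ} [NeZero M'] [Fact p.Prime] (hpM' : ¬ p ∣ M')
  {A : ValuationSubring Qb} (hA : A.LiesOverPrime p) (hp2 : p ≠ 2) {ζ : Qb}

include hA hp2 in
/-- **`DeepRep T V₁ ∧ DeepRep T V₂` in the binder context of `TropZeroT` / helper31's
`NodeSupply`**: `[T.g] = a • D.w₀` for a line datum `D` of `Y₀ ∩ M⁰`, `Y₀ ⊆ eigQ`, `W` not residually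
modular of level `M'`, `lc_q T.g₀ = 1`. -/
theorem deepRep_of_lineData
    (hnot : ¬ W.IsResiduallyModularOfLevel p M')
    (C : Copy W p (M' * p))
    (hC : C.Y0 ≤ eigQ (M' * p) p (Sset W (M' * p) p) (hMS W (M' * p) p) (aW W))
    {ι : Type} [Fintype ι] {P Q : ι → Place (ResidueField A) (FresBar (M' * p) A)} {c : ℤ} {n₀ : ℕ}
    (FF : FrameFacts (M' * p) A (exactDvd hpM') P Q)
    (NH : NodalHyp (redCompatFN (M' * p) A (exactDvd hpM')) P Q (CS (M' * p) (exactDvd hpM'))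
      (Dτ (M' * p) A p) (Dτ (M' * p) A p) (genusRR Qb (FN (M' * p))) c n₀)
    (T : TameDatum (M' * p) p A ζ) (hlc : (qEmb (M' * p) T.g₀).leadingCoeff = 1)
    {M₀ : AddSubgroup (Additive (Kum Qb (FK (M' * p)) p))}
    (hM₀ : haveI : NeZero p := ⟨(Fact.out : p.Prime).ne_zero⟩
      M₀ ≤ M0Kum (M' * p) A (exactDvd hpM') p)
    {χ : GQ → ZMod p}
    (D : LineData (KumType.gal (M' * p) p) (A.inertiaSubgroupIn ℚ) C.Y0 M₀ χ)
    (a : ZMod p)
    (hg : (Additive.ofMul (Kum.mk T.g) : Additive (Kum Qb (FK (M' * p)) p)) = a • D.w₀) :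
    DeepRep T (galVal1 (M' * p) A) ∧ DeepRep T (galVal2 (M' * p) A (exactDvd hpM')) := by
  have hp : p.Prime := Fact.out
  haveI : NeZero p := ⟨hp.ne_zero⟩
  have hY : (Additive.ofMul (Kum.mk T.g) : Additive (Kum Qb (FK (M' * p)) p)) ∈ C.Y0 := by
    rw [hg]
    exact C.Y0.smul_mem a D.mem_Y
  have hM : (Additive.ofMul (Kum.mk T.g) : Additive (Kum Qb (FK (M' * p)) p)) ∈
      M0Kum (M' * p) A (exactDvd hpM') p := by
    rw [hg, ← ZMod.natCast_zmod_val a, Nat.cast_smul_eq_nsmul]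
    exact AddSubgroup.nsmul_mem _ (hM₀ D.mem_M) _
  obtain ⟨h1, h2⟩ := knew W hpM' hnot (hC hY)
  exact deepRep_of_mem (exactDvd hpM') hA hp2 FF NH T hlc hM h1 h2

include hA hp2 in
/-- **the two roots `γ₁ γ₂` of helper31's `NodeSupply` ∃-block**, for ANY discreteness records
`hD₁ hD₂` (they are `∀`-bound there): `WDataOf.exists_root` on the two deep representatives. -/
theorem exists_roots_of_lineData
    (hnot : ¬ W.IsResiduallyModularOfLevel p M')
    (C : Copy W p (M' * p))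
    (hC : C.Y0 ≤ eigQ (M' * p) p (Sset W (M' * p) p) (hMS W (M' * p) p) (aW W))
    {ι : Type} [Fintype ι] {P Q : ι → Place (ResidueField A) (FresBar (M' * p) A)} {c : ℤ} {n₀ : ℕ}
    (FF : FrameFacts (M' * p) A (exactDvd hpM') P Q)
    (NH : NodalHyp (redCompatFN (M' * p) A (exactDvd hpM')) P Q (CS (M' * p) (exactDvd hpM'))
      (Dτ (M' * p) A p) (Dτ (M' * p) A p) (genusRR Qb (FN (M' * p))) c n₀)
    (T : TameDatum (M' * p) p A ζ) (hlc : (qEmb (M' * p) T.g₀).leadingCoeff = 1)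
    {M₀ : AddSubgroup (Additive (Kum Qb (FK (M' * p)) p))}
    (hM₀ : haveI : NeZero p := ⟨(Fact.out : p.Prime).ne_zero⟩
      M₀ ≤ M0Kum (M' * p) A (exactDvd hpM') p)
    {χ : GQ → ZMod p}
    (D : LineData (KumType.gal (M' * p) p) (A.inertiaSubgroupIn ℚ) C.Y0 M₀ χ)
    (a : ZMod p)
    (hg : (Additive.ofMul (Kum.mk T.g) : Additive (Kum Qb (FK (M' * p)) p)) = a • D.w₀)
    (hD₁ : Fermat.Agent.GF.KCover.Field.Disc.IsDisc (valF₁ T (galVal1 (M' * p) A)) (ϖ₁ T))
    (hD₂ : Fermat.Agent.GF.KCover.Field.Disc.IsDisc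
      (valF₁ T (galVal2 (M' * p) A (exactDvd hpM'))) (ϖ₁ T)) :
    (∃ γ₁ : Fermat.Agent.GF.KCover.Field.Pack.Lc hD₁,
      γ₁ ^ p = Fermat.Agent.GF.KCover.Field.Pack.jc hD₁ (g₁ T)) ∧
    (∃ γ₂ : Fermat.Agent.GF.KCover.Field.Pack.Lc hD₂,
      γ₂ ^ p = Fermat.Agent.GF.KCover.Field.Pack.jc hD₂ (g₁ T)) := by
  obtain ⟨⟨d₁, z₁, hd₁, hz₁, hg₁, hv₁⟩, ⟨d₂, z₂, hd₂, hz₂, hg₂, hv₂⟩⟩ :=
    deepRep_of_lineData W hpM' hA hp2 hnot C hC FF NH T hlc hM₀ D a hg
  exact ⟨exists_root T hA hD₁ hd₁ hz₁ hg₁ hv₁, exists_root T hA hD₂ hd₂ hz₂ hg₂ hv₂⟩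

end Line

end Fermat.Agent.GF.KCover.ASRep.DeepRepPlug

end
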