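/-
GATE-F (S44) / RULING-9 (2) = (S) of helper61 7197 (helper40): **the level-`M'p` supply of helper62's
`NodeMod.ASKDef.ASK`** — `∀ c₀, ASK T h c₀` for a tame datum whose class lies in `M⁰ ∩ Knew`,
normalised by `lc_q T.g₀ = 1`.

The chart is chosen AFTER `c₀` (`HintKD.exists_fixed_chart_offPt` at `cs := {c₀}`); the chart
representative `g` (`ASRep.exists_rat_rep`), its Artin–Schreier normal form
`nrm g = α ^ p (1 + (ζ - 1) ^ p g1)` (`ASFormChart.exists_asForm_chart`), the comparison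
`nrm g = T.g₀ h ^ p` (`RepUnique.rep_unique`), `u := α / h`, and the Krull datum of `g1` at `c₀`
(`HintKrullSrc.krullData_of_chart`).

* `ask_of_mem` : level `N' p`, hypotheses of `DeepRepPlug.deepRep_of_mem` VERBATIM + `c₀`;
* `ask_of_lineData` : in the binder context of `DeepRepPlug.deepRep_of_lineData` VERBATIM + `c₀`.
-/
import Fermat.Agent.GF.KCover.ASRep.DeepRepPlug
import Fermat.Agent.GF.KCover.ASFormChart
import Fermat.Agent.GF.KCover.NodeMod.HintKrullSrc
import Fermat.Agent.GF.KCover.NodeMod.ASKDef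

set_option autoImplicit false
set_option linter.unusedSectionVars false
set_option linter.unusedVariables false
set_option linter.style.haveILetI false

noncomputable section

namespace Fermat.Agent.GF.KCover.ASRep.ASKSupply

open AlgebraicCurve ModularCurve IsLocalRing
open Fermat.Agent.S24 Fermat.Agent.S24_helper62 Fermat.Agent.RRh45 Fermat.Agent.RR
open Fermat.Agent.GJ.J1 Fermat.Agent.GJ.J1.Val Fermat.Agent.GJ.J1.InstGen
open Fermat.Agent.GK.UQ Fermat.Agent.GK.UTr Fermat.Agent.GK.UqKronecker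
open Fermat.Agent.GJ.KumGroup Fermat.Agent.GJ.Kum Fermat.Agent.GJ.Kum.KumType
open Fermat.Agent.GK.AL Fermat.Agent.GK.MultiVal Fermat.Agent.GK.SS Fermat.Agent.GK.BallTwo
open Fermat.Agent.GS.Nodal.LSR2 Fermat.Agent.GS.Nodal.Inst Fermat.Agent.GS.Nodal.SupplyPin
open Fermat.Agent.GS.Frame Fermat.Agent.GS.Loc2.Ker Fermat.Agent.GS.Gal.FixChart
open Fermat.Agent.GF.Shape.Plug Fermat.Agent.GF.NormDepth.Inst
open Fermat.Agent.GF.Peu Fermat.Agent.GF.KumDesc
open Fermat.Agent.GF.F2Asm.Inst Fermat.Agent.GF.F2Asm.TameSigma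
open Fermat.Agent.GF.KCover.ASFormDeep Fermat.Agent.GF.KCover.ASFormNrm
open Fermat.Agent.GF.KCover.ASFormChart
open Fermat.Agent.GF.KCover.Field.WDataOf Fermat.Agent.GF.KCover.Field.WDataFinal
open Fermat.Agent.GF.KCover.ASRep Fermat.Agent.GF.KCover.ASRep.DeepRepPlug
open Fermat.Agent.GF.KCover.NodeMod
open Fermat.Agent.GF.KCover.NodeMod.ASKDef
open Fermat.Agent.GF.KCover.ASNode.KrullUp

local notation "GQ" => (AlgebraicClosure ℚ ≃ₐ[ℚ] AlgebraicClosure ℚ)
local notation "Qb" => AlgebraicClosure ℚ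

open scoped Classical

attribute [local instance] finiteResidues_FN hasPrincipalDivisors_FN nonempty_place_FN
  isAlgClosed_res finiteResidues_Fres hasPrincipalDivisors_Fres nonempty_place_Fres

section Main

variable {N' p : ℕ} [NeZero N'] [Fact p.Prime] (h : ExactDvd p (N' * p))
  {A : ValuationSubring Qb} (hA : A.LiesOverPrime p) (hp2 : p ≠ 2) {ζ : Qb}

set_option maxHeartbeats 1600000 in
include hA hp2 in
/-- **`ASK` at level `N' p`** for a tame datum whose class lies in `M⁰ ∩ Knew`, `lc_q T.g₀ = 1`. -/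
theorem ask_of_mem
    {ι : Type} [Fintype ι] {P Q : ι → Place (ResidueField A) (FresBar (N' * p) A)} {c : ℤ} {n₀ : ℕ}
    (FF : FrameFacts (N' * p) A h P Q)
    (NH : NodalHyp (redCompatFN (N' * p) A h) P Q (CS (N' * p) h) (Dτ (N' * p) A p)
      (Dτ (N' * p) A p) (genusRR Qb (FN (N' * p))) c n₀)
    (T : TameDatum (N' * p) p A ζ) (hlc : (qEmb (N' * p) T.g₀).leadingCoeff = 1)
    (hM : haveI : NeZero p := ⟨(Fact.out : p.Prime).ne_zero⟩
      (Additive.ofMul (Kum.mk T.g) : Additive (Kum Qb (FK (N' * p)) p)) ∈ M0Kum (N' * p) A h p)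
    (h1 : aLow N' p p (Additive.ofMul (Kum.mk T.g)) = 0)
    (h2 : bLow h p (Additive.ofMul (Kum.mk T.g)) = 0)
    (c₀ : ResidueField A) :
    ASK T h c₀ := by
  have hp : p.Prime := Fact.out
  haveI : NeZero p := ⟨hp.ne_zero⟩
  haveI : Nonempty ι := nonempty_of_frameFacts (N' * p) A h hA FF
  haveI : Infinite (ResidueField A) := IsAlgClosed.instInfinite
  haveI : IsDedekindDomain (Fermat.Agent.GK.QS.CRing N' A) :=
    Fermat.Agent.GK.SS.Modular.isDedekindDomain_CRing N' p A hA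
  haveI : IsFractionRing (Fermat.Agent.GK.QS.CRing N' A) (FresBar N' A) :=
    Fermat.Agent.GL.SmallQ.isFractionRing_CRing N' A
  -- an `I_A`-fixed chart OFF the value `c₀` and the chart representative of the class
  obtain ⟨n, hn, 𝔠₀, hoff, hfixc⟩ := HintKD.exists_fixed_chart_offPt h hA FF NH {c₀}
  obtain ⟨g, X, hcl, hrat, hc1, hc2, hL, -, -, -⟩ :=
    exists_rat_rep h hA FF NH hn 𝔠₀ hfixc hM (tameSet A ζ) tameSet_subset (gal_mk_tame T)
  -- the Artin–Schreier normal form of `nrm g`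
  obtain ⟨α, hα0, hαfix, g1, hg1, hg2, hg1fix, hnrm, hg1Z, -⟩ :=
    exists_asForm_chart h hA hp2 T.prim NH 𝔠₀ g hrat (by rw [hcl]; exact h1)
      (by rw [hcl]; exact h2) hc1 hc2 hL
  -- from `nrm g` to `T.g₀`
  have hfix' : ∀ ρ : GQ, IsTameFix A ζ ρ →
      arithmeticGalois (modularFunctionFieldFull (N' * p)) ρ •
        ((((nrmU g : pDivUnits Qb (FK (N' * p)) p) : (FK (N' * p))ˣ) : FK (N' * p))) =
        (((nrmU g : pDivUnits Qb (FK (N' * p)) p) : (FK (N' * p))ˣ) : FK (N' * p)) := by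
    intro ρ hρ
    have e1 := nrmU_mem_ratUnits hrat ρ hρ
    have e2 := congrArg (fun u : (FK (N' * p))ˣ => (u : FK (N' * p))) e1
    exact e2
  obtain ⟨h', hh0, hhfix, hrel⟩ := Fermat.Agent.GF.F2Asm.RepUnique.rep_unique T hlc (nrmU g)
    (by rw [mk_nrmU hp.ne_zero]; exact hcl) hfix'
    (by rw [← Laurent.lcHom_apply]; exact lc_nrmU g)
  rw [coe_coe_nrmU] at hrel
  have hαF : algebraMap Qb (FK (N' * p)) α ≠ 0 := by
    rw [Ne, map_eq_zero]
    exact hα0
  refine ⟨algebraMap Qb (FK (N' * p)) α * h'⁻¹, g1, mul_ne_zero hαF (inv_ne_zero hh0), ?_,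
    mem_F₁.mpr hg1fix, ?_, ?_⟩
  · refine mem_F₁.mpr fun ρ hρ => ?_
    rw [map_mul, map_inv₀, arithmeticRingAut_algebraMap, hαfix ρ hρ]
    congr 2
    exact hhfix ρ hρ
  · have hhp : h' ^ p ≠ 0 := pow_ne_zero _ hh0
    have h3 : T.g₀ * h' ^ p = algebraMap Qb (FK (N' * p)) α ^ p *
        (1 + algebraMap Qb (FK (N' * p)) ((ζ - 1) ^ p) * g1) := hrel.symm.trans hnrm
    rw [mul_pow, inv_pow]
    field_simp
    linear_combination h3
  · exact HintKrullSrc.krullData_of_chart h hA T.prim NH 𝔠₀ hfixc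
      (fun i => hoff i c₀ (Finset.mem_singleton_self c₀)) g1 hg1fix hg1 hg2 p hg1Z

end Main

/-! ### the `TropZeroT` / `NodeSupply` binder context -/

section Line

open Fermat.Agent.GF.Setup.Plane Fermat.Agent.GF.Setup.S0 Fermat.Agent.GF.Shape.Sub
open Fermat.Agent.GB.A.A6.EigQ

variable (W : WeierstrassCurve ℤ) {M' p : ℕ} [NeZero M'] [Fact p.Prime] (hpM' : ¬ p ∣ M')
  {A : ValuationSubring Qb} (hA : A.LiesOverPrime p) (hp2 : p ≠ 2) {ζ : Qb}

include hA hp2 in
/-- **`ASK T (exactDvd hpM') c₀` in the binder context of `DeepRepPlug.deepRep_of_lineData`**, for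
EVERY `c₀`. -/
theorem ask_of_lineData
    (hnot : ¬ W.IsResiduallyModularOfLevel p M')
    (C : Copy W p (M' * p))
    (hC : C.Y0 ≤ eigQ (M' * p) p (Sset W (M' * p) p) (hMS W (M' * p) p) (aW W))
    {ι : Type} [Fintype ι] {P Q : ι → Place (ResidueField A) (FresBar (M' * p) A)} {c : ℤ} {n₀ : ℕ}
    (FF : FrameFacts (M' * p) A (exactDvd hpM') P Q)
    (NH : NodalHyp (redCompatFN (M' * p) A (exactDvd hpM')) P Q (CS (M' * p) (exactDvd hpM'))
      (Dτ (M' * p) A p) (Dτ (M' * p) A p) (genusRR Qb (FN (M' * p))) c n₀)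
    (T : TameDatum (M' * p) p A ζ) (hlc : (qEmb (M' * p) T.g₀).leadingCoeff = 1)
    {M₀ : AddSubgroup (Additive (Kum Qb (FK (M' * p)) p))}
    (hM₀ : haveI : NeZero p := ⟨(Fact.out : p.Prime).ne_zero⟩
      M₀ ≤ M0Kum (M' * p) A (exactDvd hpM') p)
    {χ : GQ → ZMod p}
    (D : LineData (KumType.gal (M' * p) p) (A.inertiaSubgroupIn ℚ) C.Y0 M₀ χ)
    (a : ZMod p)
    (hg : (Additive.ofMul (Kum.mk T.g) : Additive (Kum Qb (FK (M' * p)) p)) = a • D.w₀)
    (c₀ : ResidueField A) :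
    ASK T (exactDvd hpM') c₀ := by
  have hp : p.Prime := Fact.out
  haveI : NeZero p := ⟨hp.ne_zero⟩
  have hY : (Additive.ofMul (Kum.mk T.g) : Additive (Kum Qb (FK (M' * p)) p)) ∈ C.Y0 := by
    rw [hg]
    exact C.Y0.smul_mem a D.mem_Y
  have hM : (Additive.ofMul (Kum.mk T.g) : Additive (Kum Qb (FK (M' * p)) p)) ∈
      M0Kum (M' * p) A (exactDvd hpM') p := by
    rw [hg, ← ZMod.natCast_zmod_val a, Nat.cast_smul_eq_nsmul]
    exact AddSubgroup.nsmul_mem _ (hM₀ D.mem_M) _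
  obtain ⟨h1, h2⟩ := knew W hpM' hnot (hC hY)
  exact ask_of_mem (exactDvd hpM') hA hp2 FF NH T hlc hM h1 h2 c₀

end Line

end Fermat.Agent.GF.KCover.ASRep.ASKSupply

end
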